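/-
FF3/StepA2/FrameBasic.lean — elementary consequences of the `Frame` axioms (block A2/A3 of
PROGRAMME I, Step A): the second expansion `e2 = e1 ∘ W_q`, norms versus the valuation subrings
`O_M`, `O_1`, `O_2`, density, joint approximation.
-/
import Mathlib
import Fermat.Agent.FF3.StepA.Defs

set_option autoImplicit false
set_option linter.unusedSectionVars false
set_option linter.unusedVariables false

noncomputable section

namespace Fermat.Agent.FF3.StepA2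

open AlgebraicCurve ModularCurve IsLocalRing Fermat.Agent.Red Fermat.Agent.X0 Fermat.Agent.Hecke
  Fermat.Agent.Jac Fermat.Agent.Val Fermat.Agent.BR Fermat.Agent.BR.SS Fermat.Agent.BR.S0
  Fermat.Agent.BR.TwoVal Fermat.Agent.BR.TwoValInst Fermat.Agent.BR.ConstRedTwo
  Fermat.Agent.BR.Inst.SpecIso Fermat.Agent.BR2.NormResidueModular
  Fermat.Agent.BR.S0.RedModular Fermat.Agent.BR.ResGen Fermat.Agent.FF3.StepA

variable {M q : ℕ} [NeZero M] [hq : Fact q.Prime]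
  {B : ValuationSubring (AlgebraicClosure ℚ)} [IsAlgClosed (ResidueField B)]
  [CharP (ResidueField B) q]
  {hB : B.LiesOverPrime q} (hqM : ¬ q ∣ M)
  {L : Type} [NormedField L] (Fr : Frame M q B hB L)

/-! ### `e2` -/

theorem e2_apply (x : Fb (M * q)) : Fr.e2 hqM x = Fr.e1 (Wq hqM x) := rfl

theorem eM_apply (x : Fb M) : Fr.eM x = Fr.e1 (heckeAlphaBar Kb M q x) := rfl

theorem e2_alpha (x : Fb M) : Fr.e2 hqM (heckeAlphaBar Kb M q x) = Fr.φ (Fr.eM x) := by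
  rw [e2_apply, Wq_alpha, Fr.e1_beta, eM_apply]

theorem e2_beta (x : Fb M) : Fr.e2 hqM (heckeBetaBar Kb M q x) = Fr.eM x := by
  rw [e2_apply, Wq_beta, eM_apply]

theorem e1_Wq (x : Fb (M * q)) : Fr.e1 (Wq hqM x) = Fr.e2 hqM x := rfl

theorem e2_Wq (x : Fb (M * q)) : Fr.e2 hqM (Wq hqM x) = Fr.e1 x := by
  rw [e2_apply, Wq_Wq]

theorem norm_e2_le_one_iff (x : Fb (M * q)) : ‖Fr.e2 hqM x‖ ≤ 1 ↔ x ∈ O2 B hB hqM := by
  rw [e2_apply, Fr.norm_le_one_iff, mem_O2_iff]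

theorem e2_jQ : Fr.e2 hqM (jQ M q) = Fr.theta := by
  rw [e2_apply, Wq_jQ]
  rfl

/-! ### norms and nonunits -/

theorem norm_e1_lt_one_iff (x : Fb (M * q)) : ‖Fr.e1 x‖ < 1 ↔ x ∈ (O1 M B hB).nonunits := by
  rw [ValuationSubring.mem_nonunits_iff_or]
  by_cases hx : x = 0
  · subst hx
    simp
  · have hne : Fr.e1 x ≠ 0 := (map_ne_zero Fr.e1).mpr hx
    rw [← Fr.norm_le_one_iff, map_inv₀, norm_inv]
    constructor
    · intro h
      right
      rw [not_le]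
      exact (one_lt_inv₀ (norm_pos_iff.mpr hne)).mpr h
    · rintro (h | h)
      · exact absurd h hx
      · rw [not_le] at h
        exact (one_lt_inv₀ (norm_pos_iff.mpr hne)).mp h

theorem norm_e2_lt_one_iff (x : Fb (M * q)) :
    ‖Fr.e2 hqM x‖ < 1 ↔ x ∈ (O2 B hB hqM).nonunits := by
  rw [e2_apply, norm_e1_lt_one_iff, mem_nonunits_O2_iff_Wq]

theorem norm_eM_le_one_iff (x : Fb M) : ‖Fr.eM x‖ ≤ 1 ↔ x ∈ OM M B hB := by
  rw [eM_apply, Fr.norm_le_one_iff, alpha_mem_O1_iff]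

theorem norm_eM_lt_one_iff (x : Fb M) : ‖Fr.eM x‖ < 1 ↔ x ∈ (OM M B hB).nonunits := by
  rw [ValuationSubring.mem_nonunits_iff_or]
  by_cases hx : x = 0
  · subst hx
    simp
  · have hne : Fr.eM x ≠ 0 := (map_ne_zero Fr.eM).mpr hx
    rw [← norm_eM_le_one_iff Fr, map_inv₀, norm_inv]
    constructor
    · intro h
      right
      rw [not_le]
      exact (one_lt_inv₀ (norm_pos_iff.mpr hne)).mpr h
    · rintro (h | h)
      · exact absurd h hx
      · rw [not_le] at h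
        exact (one_lt_inv₀ (norm_pos_iff.mpr hne)).mp h

theorem norm_theta_le_one : ‖Fr.theta‖ ≤ 1 :=
  (Fr.norm_le_one_iff _).mpr (jOne_mem_O1 B hB)

/-! ### a small element at both valuations -/

/-- `c₀ = t · s` (the two Kronecker elements): small at both valuations. -/
def smallElt (M q : ℕ) [NeZero M] [Fact q.Prime] : Fb (M * q) := tKron M q * sKron M q

include hB hqM in
theorem smallElt_ne_zero : smallElt M q ≠ 0 :=
  mul_ne_zero (tKron_ne_zero B hB hqM) (sKron_ne_zero B hB hqM)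

theorem Wq_smallElt : Wq hqM (smallElt M q) = smallElt M q := by
  unfold smallElt
  rw [map_mul, Wq_tKron, Wq_sKron]
  exact mul_comm _ _

include hqM in
theorem norm_e1_smallElt_lt_one : ‖Fr.e1 (smallElt M q)‖ < 1 := by
  rw [norm_e1_lt_one_iff]
  have h1 : sKron M q ∈ O1 M B hB := by
    rw [← Wq_tKron hqM, Wq_mem_O1_iff]
    exact tKron_mem_O2 B hB hqM
  exact mul_mem_nonunits_right (O1 M B hB) (tKron_mem_nonunits_O1 B hB) h1

theorem norm_e2_smallElt : ‖Fr.e2 hqM (smallElt M q)‖ = ‖Fr.e1 (smallElt M q)‖ := by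
  rw [e2_apply, Wq_smallElt]

include hqM Fr in
/-- `L` is nontrivially normed. -/
theorem exists_one_lt_norm : ∃ x : L, 1 < ‖x‖ := by
  refine ⟨(Fr.e1 (smallElt M q))⁻¹, ?_⟩
  rw [norm_inv]
  have hne : Fr.e1 (smallElt M q) ≠ 0 :=
    (map_ne_zero Fr.e1).mpr (smallElt_ne_zero (B := B) (hB := hB) hqM)
  exact (one_lt_inv₀ (norm_pos_iff.mpr hne)).mpr (norm_e1_smallElt_lt_one hqM Fr)

/-! ### density and joint approximation -/

theorem denseRange_e1 : DenseRange Fr.e1 := by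
  intro y
  refine closure_mono ?_ (Fr.dense y)
  rintro _ ⟨x, rfl⟩
  exact ⟨heckeAlphaBar Kb M q x, rfl⟩

theorem denseRange_e2 : DenseRange (Fr.e2 hqM) := by
  intro y
  refine closure_mono ?_ (denseRange_e1 Fr y)
  rintro _ ⟨x, rfl⟩
  exact ⟨Wq hqM x, e2_Wq hqM Fr x⟩

/-- **Joint approximation** (from `TwoValInst.exists_approx12`). -/
theorem exists_joint_approx (u v : Fb (M * q)) (ε : ℝ) (hε : 0 < ε) :
    ∃ z : Fb (M * q), ‖Fr.e1 z - Fr.e1 u‖ < ε ∧ ‖Fr.e2 hqM z - Fr.e2 hqM v‖ < ε := by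
  set r := ‖Fr.e1 (smallElt M q)‖ with hr
  have hr1 : r < 1 := norm_e1_smallElt_lt_one hqM Fr
  have hr0 : 0 ≤ r := norm_nonneg _
  obtain ⟨n, hn⟩ := exists_pow_lt_of_lt_one hε hr1
  set c : Fb (M * q) := smallElt M q ^ n with hc
  have hc0 : c ≠ 0 := pow_ne_zero n (smallElt_ne_zero (B := B) (hB := hB) hqM)
  obtain ⟨z, hz1, hz2⟩ := exists_approx12 B hB hqM c u v
  refine ⟨z, ?_, ?_⟩
  · have h1 : ‖Fr.e1 ((z - u) * c⁻¹)‖ ≤ 1 := (Fr.norm_le_one_iff _).mpr hz1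
    rw [map_mul, map_inv₀, norm_mul, norm_inv] at h1
    have hcpos : 0 < ‖Fr.e1 c‖ := norm_pos_iff.mpr ((map_ne_zero Fr.e1).mpr hc0)
    have h2 : ‖Fr.e1 (z - u)‖ ≤ ‖Fr.e1 c‖ := by
      rwa [← div_eq_mul_inv, div_le_one hcpos] at h1
    rw [← map_sub]
    refine lt_of_le_of_lt h2 ?_
    rw [hc, map_pow, norm_pow]
    exact hn
  · have h1 : ‖Fr.e2 hqM ((z - v) * c⁻¹)‖ ≤ 1 := (norm_e2_le_one_iff hqM Fr _).mpr hz2
    rw [map_mul, map_inv₀, norm_mul, norm_inv] at h1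
    have hcpos : 0 < ‖Fr.e2 hqM c‖ := norm_pos_iff.mpr ((map_ne_zero (Fr.e2 hqM)).mpr hc0)
    have h2 : ‖Fr.e2 hqM (z - v)‖ ≤ ‖Fr.e2 hqM c‖ := by
      rwa [← div_eq_mul_inv, div_le_one hcpos] at h1
    rw [← map_sub]
    refine lt_of_le_of_lt h2 ?_
    rw [hc, map_pow, norm_pow, norm_e2_smallElt]
    exact hn

end Fermat.Agent.FF3.StepA2
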