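/-
FF3/StepA2/LPhi.lean — `L` regarded as an algebra over itself through an endomorphism `φ`
(type synonym, so that the two `L`-algebra structures on `L` never meet in instance search).
-/
import Mathlib

set_option autoImplicit false

namespace Fermat.Agent.FF3.StepA2

/-- `L` as an `L`-algebra through `φ : L →+* L`. -/
def LPhi {L : Type*} [NormedField L] (_φ : L →+* L) : Type _ := L

namespace LPhi

variable {L : Type*} [NormedField L] (φ : L →+* L)

noncomputable instance instNormedField : NormedField (LPhi φ) := inferInstanceAs (NormedField L)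

instance instIsUltrametricDist [IsUltrametricDist L] : IsUltrametricDist (LPhi φ) :=
  inferInstanceAs (IsUltrametricDist L)

instance instCompleteSpace [CompleteSpace L] : CompleteSpace (LPhi φ) :=
  inferInstanceAs (CompleteSpace L)

/-- the identity, as a ring isomorphism `L ≃+* LPhi φ` -/
def of : L ≃+* LPhi φ := RingEquiv.refl L

@[simp] theorem norm_of (y : L) : ‖of φ y‖ = ‖y‖ := rfl

noncomputable instance instAlgebra : Algebra L (LPhi φ) :=
  ((of φ : L →+* LPhi φ).comp φ).toAlgebra

theorem algebraMap_apply (x : L) : algebraMap L (LPhi φ) x = of φ (φ x) := rfl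

theorem smul_def (x : L) (y : LPhi φ) : x • y = of φ (φ x) * y := rfl

/-- If `φ` is isometric, `LPhi φ` is a normed `L`-algebra. -/
@[reducible] noncomputable def normedAlgebra (hφ : ∀ y : L, ‖φ y‖ = ‖y‖) :
    NormedAlgebra L (LPhi φ) where
  norm_smul_le x y := by
    rw [smul_def, norm_mul, norm_of, hφ]

end LPhi

end Fermat.Agent.FF3.StepA2
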