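/-
FF3/StepA2/OrthoAbs.lean — abstract core of block A3 (Mathlib + FF3/Mono7 + LPhi).

`φ : L →+* L` an isometric endomorphism of an ultrametric normed field, `θ : L` integral, and a
dense set `D` of coefficients for which the residues of `1, θ, …, θ^(d-1)` are known to be
independent "through `φ`".  Then `‖∑ φ (c i) * θ^i‖ = max ‖c i‖` for ALL coefficients in `L`, the
powers are linearly independent over `L` (acting through `φ`), and if `[L : φ L] = d` every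
element of `L` is such a combination.
-/
import Mathlib
import Fermat.Agent.FF3.Mono7.Normed
import Fermat.Agent.FF3.StepA2.LPhi

set_option autoImplicit false
set_option linter.unusedSectionVars false

namespace Fermat.Agent.FF3.StepA2

open Fermat.Agent.FF3.Mono7

variable {L : Type*} [NormedField L] [IsUltrametricDist L] (φ : L →+* L)

omit φ in
theorem norm_sub_le_max' (x y : L) : ‖x - y‖ ≤ max ‖x‖ ‖y‖ := by
  rw [sub_eq_add_neg]
  have := IsUltrametricDist.norm_add_le_max x (-y)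
  rwa [norm_neg] at this

/-- the combination, computed in `LPhi φ`, is the combination in `L` -/
theorem LPhi.sum_smul_pow {d : ℕ} (c : Fin d → L) (θ : L) :
    (∑ i, c i • (LPhi.of φ θ) ^ (i : ℕ) : LPhi φ) = LPhi.of φ (∑ i, φ (c i) * θ ^ (i : ℕ)) := by
  rw [map_sum]
  refine Finset.sum_congr rfl (fun i _ => ?_)
  rw [LPhi.smul_def, map_mul, map_pow]

theorem norm_sum_lt_one_of_forall_lt {d : ℕ} (c : Fin d → L) (θ : L) (hθ : ‖θ‖ ≤ 1)
    (hc : ∀ i, ‖c i‖ < 1) : ‖∑ i, c i * θ ^ (i : ℕ)‖ < 1 := by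
  obtain ⟨i, -, hi⟩ | hempty := (Finset.univ : Finset (Fin d)).eq_empty_or_nonempty.symm.imp
      (fun h => IsUltrametricDist.exists_norm_finsetSum_le_of_nonempty h
        (fun i => c i * θ ^ (i : ℕ))) id
  · refine lt_of_le_of_lt hi ?_
    rw [norm_mul, norm_pow]
    calc ‖c i‖ * ‖θ‖ ^ (i : ℕ) ≤ ‖c i‖ * 1 :=
          mul_le_mul_of_nonneg_left (pow_le_one₀ (norm_nonneg _) hθ) (norm_nonneg _)
      _ = ‖c i‖ := mul_one _
      _ < 1 := hc i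
  · rw [hempty, Finset.sum_empty, norm_zero]
    exact one_pos

theorem norm_sum_le_one_of_forall_le {d : ℕ} (c : Fin d → L) (θ : L) (hθ : ‖θ‖ ≤ 1)
    (hc : ∀ i, ‖c i‖ ≤ 1) : ‖∑ i, c i * θ ^ (i : ℕ)‖ ≤ 1 := by
  obtain ⟨i, -, hi⟩ | hempty := (Finset.univ : Finset (Fin d)).eq_empty_or_nonempty.symm.imp
      (fun h => IsUltrametricDist.exists_norm_finsetSum_le_of_nonempty h
        (fun i => c i * θ ^ (i : ℕ))) id
  · refine le_trans hi ?_
    rw [norm_mul, norm_pow]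
    calc ‖c i‖ * ‖θ‖ ^ (i : ℕ) ≤ ‖c i‖ * 1 :=
          mul_le_mul_of_nonneg_left (pow_le_one₀ (norm_nonneg _) hθ) (norm_nonneg _)
      _ = ‖c i‖ := mul_one _
      _ ≤ 1 := hc i
  · rw [hempty, Finset.sum_empty, norm_zero]
    exact zero_le_one

variable (hφ : ∀ y : L, ‖φ y‖ = ‖y‖)
include hφ

/-- Extension of the residue-independence statement from a dense set of coefficients to all
coefficients. -/
theorem forall_lt_of_dense (θ : L) (hθ : ‖θ‖ ≤ 1) (d : ℕ) (D : Set L) (hD : Dense D)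
    (hres : ∀ c : Fin d → L, (∀ i, c i ∈ D) → (∀ i, ‖c i‖ ≤ 1) →
      ‖∑ i, φ (c i) * θ ^ (i : ℕ)‖ < 1 → ∀ i, ‖c i‖ < 1)
    (c : Fin d → L) (hc : ∀ i, ‖c i‖ ≤ 1) (hsum : ‖∑ i, φ (c i) * θ ^ (i : ℕ)‖ < 1) :
    ∀ i, ‖c i‖ < 1 := by
  -- approximate each `c i` by an element of `D` within distance `< 1`
  have happ : ∀ i, ∃ c' ∈ D, ‖c i - c'‖ < 1 := by
    intro i
    obtain ⟨c', hc'D, hc'⟩ := Metric.mem_closure_iff.mp (hD (c i)) 1 one_pos
    exact ⟨c', hc'D, by rwa [dist_eq_norm] at hc'⟩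
  choose c' hc'D hc' using happ
  have hc'1 : ∀ i, ‖c' i‖ ≤ 1 := by
    intro i
    have h1 : c' i = c i - (c i - c' i) := by ring
    rw [h1]
    exact le_trans (norm_sub_le_max' _ _) (max_le (hc i) (hc' i).le)
  have hdiff : ‖∑ i, φ (c i - c' i) * θ ^ (i : ℕ)‖ < 1 :=
    norm_sum_lt_one_of_forall_lt _ θ hθ (fun i => by rw [hφ]; exact hc' i)
  have hsum' : ‖∑ i, φ (c' i) * θ ^ (i : ℕ)‖ < 1 := by
    have h1 : ∑ i, φ (c' i) * θ ^ (i : ℕ) =
        ∑ i, φ (c i) * θ ^ (i : ℕ) - ∑ i, φ (c i - c' i) * θ ^ (i : ℕ) := by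
      rw [← Finset.sum_sub_distrib]
      refine Finset.sum_congr rfl (fun i _ => ?_)
      rw [map_sub]; ring
    rw [h1]
    exact lt_of_le_of_lt (norm_sub_le_max' _ _) (max_lt hsum hdiff)
  have h2 := hres c' hc'D hc'1 hsum'
  intro i
  have h1 : c i = c' i + (c i - c' i) := by ring
  rw [h1]
  exact lt_of_le_of_lt (IsUltrametricDist.norm_add_le_max _ _) (max_lt (h2 i) (hc' i))

/-- Hypothesis (H) of `FF3/Mono7` for `LPhi φ` over `L`. -/
theorem residueIndepNorm_LPhi (θ : L) (hθ : ‖θ‖ ≤ 1) (d : ℕ) (D : Set L) (hD : Dense D)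
    (hres : ∀ c : Fin d → L, (∀ i, c i ∈ D) → (∀ i, ‖c i‖ ≤ 1) →
      ‖∑ i, φ (c i) * θ ^ (i : ℕ)‖ < 1 → ∀ i, ‖c i‖ < 1) :
    ResidueIndepNorm L (LPhi.of φ θ) d := by
  intro a ha1 ⟨i, hi⟩
  rw [LPhi.sum_smul_pow, LPhi.norm_of]
  have hle : ‖∑ i, φ (a i) * θ ^ (i : ℕ)‖ ≤ 1 :=
    norm_sum_le_one_of_forall_le _ θ hθ (fun i => by rw [hφ]; exact ha1 i)
  rcases lt_or_eq_of_le hle with hlt | heq
  · exact absurd hi (ne_of_lt (forall_lt_of_dense φ hφ θ hθ d D hD hres a ha1 hlt i))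
  · exact heq

theorem LPhi.norm_algebraMap (x : L) : ‖algebraMap L (LPhi φ) x‖ = ‖x‖ := by
  rw [LPhi.algebraMap_apply, LPhi.norm_of, hφ]

/-- **A3, abstract, part 1**: the max-formula. -/
theorem norm_sum_phi_eq_iSup (θ : L) (hθ : ‖θ‖ ≤ 1) (d : ℕ) (hd : 0 < d) (D : Set L)
    (hD : Dense D)
    (hres : ∀ c : Fin d → L, (∀ i, c i ∈ D) → (∀ i, ‖c i‖ ≤ 1) →
      ‖∑ i, φ (c i) * θ ^ (i : ℕ)‖ < 1 → ∀ i, ‖c i‖ < 1)
    (c : Fin d → L) : ‖∑ i, φ (c i) * θ ^ (i : ℕ)‖ = ⨆ i, ‖c i‖ := by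
  have H := residueIndepNorm_LPhi φ hφ θ hθ d D hD hres
  have h := norm_sum_eq_iSup (LPhi.norm_algebraMap φ hφ) H hd c
  rwa [LPhi.sum_smul_pow, LPhi.norm_of] at h

/-- **A3, abstract, part 2**: linear independence over `L` (through `φ`). -/
theorem linearIndependent_LPhi (θ : L) (hθ : ‖θ‖ ≤ 1) (d : ℕ) (D : Set L) (hD : Dense D)
    (hres : ∀ c : Fin d → L, (∀ i, c i ∈ D) → (∀ i, ‖c i‖ ≤ 1) →
      ‖∑ i, φ (c i) * θ ^ (i : ℕ)‖ < 1 → ∀ i, ‖c i‖ < 1) :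
    LinearIndependent L (fun i : Fin d => (LPhi.of φ θ) ^ (i : ℕ)) :=
  linearIndependent_pow_of_norm (LPhi.norm_algebraMap φ hφ)
    (residueIndepNorm_LPhi φ hφ θ hθ d D hD hres)

/-- **A3, abstract, part 3**: if `[L : φ L] = d`, every element is a combination. -/
theorem exists_sum_phi (θ : L) (hθ : ‖θ‖ ≤ 1) (d : ℕ) (hd : 0 < d) (D : Set L) (hD : Dense D)
    (hres : ∀ c : Fin d → L, (∀ i, c i ∈ D) → (∀ i, ‖c i‖ ≤ 1) →
      ‖∑ i, φ (c i) * θ ^ (i : ℕ)‖ < 1 → ∀ i, ‖c i‖ < 1)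
    (hrank : Module.finrank L (LPhi φ) = d) (y : L) :
    ∃ c : Fin d → L, y = ∑ i, φ (c i) * θ ^ (i : ℕ) := by
  have H := residueIndepNorm_LPhi φ hφ θ hθ d D hD hres
  obtain ⟨c, hc⟩ := exists_coeff_norm (LPhi.norm_algebraMap φ hφ) H hd hrank (LPhi.of φ y)
  refine ⟨c, ?_⟩
  rw [LPhi.sum_smul_pow] at hc
  exact (LPhi.of φ).injective hc

end Fermat.Agent.FF3.StepA2
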