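/-
FF3/StepA2/Ortho.lean — block A3 of PROGRAMME I, Step A: `1, θ, …, θ^(q-1)` is an orthonormal
basis of `L` over `φ L`.  (The spanning statement needs `[L : φ L] = q`, block A2.)
-/
import Mathlib
import Fermat.Agent.FF3.StepA2.FrameBasic
import Fermat.Agent.FF3.StepA2.OrthoAbs

set_option autoImplicit false
set_option linter.unusedSectionVars false
set_option linter.unusedVariables false
set_option linter.style.haveILetI false

noncomputable section

namespace Fermat.Agent.FF3.StepA2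

open AlgebraicCurve ModularCurve IsLocalRing Fermat.Agent.Red Fermat.Agent.X0 Fermat.Agent.Hecke
  Fermat.Agent.Jac Fermat.Agent.Val Fermat.Agent.BR Fermat.Agent.BR.SS Fermat.Agent.BR.S0
  Fermat.Agent.BR.TwoVal Fermat.Agent.BR.TwoValInst Fermat.Agent.BR.ConstRedTwo
  Fermat.Agent.BR.Inst.SpecIso Fermat.Agent.BR2.NormResidueModular
  Fermat.Agent.BR.S0.RedModular Fermat.Agent.BR.ResGen Fermat.Agent.FF3.StepA

variable {M q : ℕ} [NeZero M] [hq : Fact q.Prime]
  {B : ValuationSubring (AlgebraicClosure ℚ)} [IsAlgClosed (ResidueField B)]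
  [CharP (ResidueField B) q]
  {hB : B.LiesOverPrime q} (hqM : ¬ q ∣ M)
  {L : Type} [NormedField L] [IsUltrametricDist L] (Fr : Frame M q B hB L)
include hqM

/-- The residue-independence statement for coefficients in the dense subfield `eM (Fb M)`
(transport of `TwoValInst.resIndep_jQ_pow` by `W_q`). -/
theorem forall_lt_of_range_eM (c : Fin q → L) (hcD : ∀ i, c i ∈ Set.range Fr.eM)
    (hc1 : ∀ i, ‖c i‖ ≤ 1) (hsum : ‖∑ i, Fr.φ (c i) * Fr.theta ^ (i : ℕ)‖ < 1) :
    ∀ i, ‖c i‖ < 1 := by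
  letI := algebraAlong (heckeAlphaBar Kb M q)
  choose a ha using hcD
  have haOM : ∀ i, a i ∈ OM M B hB := fun i => by
    rw [← norm_eM_le_one_iff Fr, ha i]
    exact hc1 i
  have hcomb : Fr.e2 hqM (∑ i, a i • jQ M q ^ (i : ℕ)) =
      ∑ i, Fr.φ (c i) * Fr.theta ^ (i : ℕ) := by
    rw [map_sum]
    refine Finset.sum_congr rfl (fun i _ => ?_)
    rw [Algebra.smul_def, algebraMap_along_apply, map_mul, map_pow, e2_alpha, e2_jQ, ha i]
  have hmem : ∑ i, a i • jQ M q ^ (i : ℕ) ∈ (O2 B hB hqM).nonunits := by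
    rw [← norm_e2_lt_one_iff hqM Fr, hcomb]
    exact hsum
  have h := (resIndep_jQ_pow B hB hqM).2 a haOM hmem
  intro i
  rw [← ha i, norm_eM_lt_one_iff]
  exact h i

/-- **(A-orth), part 1** : `‖∑ φ (c i) θ^i‖ = max ‖c i‖`. -/
theorem norm_sum_theta (c : Fin q → L) :
    ‖∑ i : Fin q, Fr.φ (c i) * Fr.theta ^ (i : ℕ)‖ = ⨆ i : Fin q, ‖c i‖ :=
  norm_sum_phi_eq_iSup Fr.φ Fr.norm_phi Fr.theta (norm_theta_le_one Fr) q hq.out.pos
    (Set.range Fr.eM) Fr.dense (forall_lt_of_range_eM hqM Fr) c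

/-- linear independence of `1, θ, …, θ^(q-1)` over `L` acting through `φ` -/
theorem linearIndependent_theta :
    LinearIndependent L (fun i : Fin q => (LPhi.of Fr.φ Fr.theta) ^ (i : ℕ)) :=
  linearIndependent_LPhi Fr.φ Fr.norm_phi Fr.theta (norm_theta_le_one Fr) q
    (Set.range Fr.eM) Fr.dense (forall_lt_of_range_eM hqM Fr)

/-- **(A-orth), part 2**, conditional on the degree (block A2). -/
theorem exists_sum_theta_of_finrank (hrank : Module.finrank L (LPhi Fr.φ) = q) (y : L) :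
    ∃ c : Fin q → L, y = ∑ i : Fin q, Fr.φ (c i) * Fr.theta ^ (i : ℕ) :=
  exists_sum_phi Fr.φ Fr.norm_phi Fr.theta (norm_theta_le_one Fr) q hq.out.pos
    (Set.range Fr.eM) Fr.dense (forall_lt_of_range_eM hqM Fr) hrank y

end Fermat.Agent.FF3.StepA2
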