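/-
FF3/StepA2/SplitAbs.lean — abstract core of block A2 (Mathlib + FF3/NormFac).

"Completion splitting": `E / F` a finite field extension, `L ⊇ F` a complete nontrivially normed
field in which `F` is dense, `L'` a normed field which is a normed `L`-algebra, and two
`F`-algebra maps `e1 : E → L`, `e2 : E → L'` with `e2` of dense range which can be approximated
jointly.  Then `L'` is finite over `L`, `L ⊗[F] E → L × L'` is surjective, and
`1 + [L' : L] ≤ [E : F]`; in case of equality it is an isomorphism and
`N_{E/F}(f) = e1 f * N_{L'/L}(e2 f)` in `L`.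
-/
import Mathlib
import Fermat.Agent.FF3.NormFac.Basic

set_option autoImplicit false
set_option linter.unusedSectionVars false

namespace Fermat.Agent.FF3.StepA2

open scoped TensorProduct
open Topology

section Split

variable {F E L L' : Type*} [Field F] [Field E] [Algebra F E] [FiniteDimensional F E]
  [NontriviallyNormedField L] [CompleteSpace L] [Algebra F L]
  [NormedField L'] [NormedAlgebra L L'] [Algebra F L'] [IsScalarTower F L L']
  (e1 : E →ₐ[F] L) (e2 : E →ₐ[F] L')

/-- The comparison map `L ⊗[F] E → L × L'`, `x ⊗ f ↦ (x * e1 f, x • e2 f)`. -/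
noncomputable def splitMap : L ⊗[F] E →ₐ[L] L × L' :=
  Algebra.TensorProduct.lift (Algebra.ofId L (L × L')) (e1.prod e2) (fun _ _ => Commute.all _ _)

@[simp]
theorem splitMap_tmul (x : L) (f : E) :
    splitMap e1 e2 (x ⊗ₜ[F] f) = (x * e1 f, x • e2 f) := by
  rw [splitMap, Algebra.TensorProduct.lift_tmul]
  ext
  · simp [Algebra.ofId_apply, Algebra.algebraMap_eq_smul_one]
  · simp [Algebra.ofId_apply, Algebra.algebraMap_eq_smul_one]

theorem splitMap_one_tmul (f : E) :
    splitMap e1 e2 ((1 : L) ⊗ₜ[F] f) = (e1 f, e2 f) := by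
  rw [splitMap_tmul, one_mul, one_smul]

/-- **Step 1.**  If `e2` has dense range then `L'` is finite over `L`. -/
theorem finite_of_denseRange (he2 : DenseRange e2) : Module.Finite L L' := by
  classical
  let b := Module.finBasis F E
  let V : Submodule L L' := Submodule.span L (Set.range (fun k => e2 (b k)))
  have hfin : FiniteDimensional L V := FiniteDimensional.span_of_finite L (Set.finite_range _)
  have hclosed : IsClosed (V : Set L') := V.closed_of_finiteDimensional
  have hsub : Set.range e2 ⊆ (V : Set L') := by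
    rintro _ ⟨f, rfl⟩
    rw [← b.sum_repr f, map_sum]
    refine V.sum_mem (fun k _ => ?_)
    rw [Algebra.smul_def, map_mul, AlgHom.commutes, IsScalarTower.algebraMap_apply F L L',
      ← Algebra.smul_def]
    exact V.smul_mem _ (Submodule.subset_span ⟨k, rfl⟩)
  have htop : V = ⊤ := by
    rw [eq_top_iff]
    intro y _
    have hy : y ∈ closure (Set.range e2) := he2 y
    exact hclosed.closure_subset_iff.mpr hsub hy
  have hsurj : Function.Surjective V.subtype := by
    intro y
    exact ⟨⟨y, htop ▸ Submodule.mem_top⟩, rfl⟩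
  exact Module.Finite.of_surjective V.subtype hsurj

/-- **Step 2.**  The comparison map is surjective. -/
theorem splitMap_surjective (hF : DenseRange (algebraMap F L)) (he2 : DenseRange e2)
    (happrox : ∀ u v : E, ∀ ε : ℝ, 0 < ε → ∃ z : E, ‖e1 z - e1 u‖ < ε ∧ ‖e2 z - e2 v‖ < ε) :
    Function.Surjective (splitMap e1 e2) := by
  have : Module.Finite L L' := finite_of_denseRange e2 he2
  let W : Submodule L (L × L') := LinearMap.range (splitMap e1 e2).toLinearMap
  have hclosed : IsClosed (W : Set (L × L')) := W.closed_of_finiteDimensional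
  have hdense : ∀ p : L × L', p ∈ closure (W : Set (L × L')) := by
    rintro ⟨x, y⟩
    rw [Metric.mem_closure_iff]
    intro ε hε
    have hε2 : 0 < ε / 2 := half_pos hε
    obtain ⟨_, ⟨a, rfl⟩, ha⟩ := Metric.mem_closure_iff.mp (hF x) (ε / 2) hε2
    obtain ⟨_, ⟨v, rfl⟩, hv⟩ := Metric.mem_closure_iff.mp (he2 y) (ε / 2) hε2
    obtain ⟨z, hz1, hz2⟩ := happrox (algebraMap F E a) v (ε / 2) hε2
    refine ⟨(e1 z, e2 z), ⟨(1 : L) ⊗ₜ[F] z, splitMap_one_tmul e1 e2 z⟩, ?_⟩
    rw [Prod.dist_eq, max_lt_iff]
    constructor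
    · simp only
      rw [AlgHom.commutes] at hz1
      calc dist x (e1 z) ≤ dist x (algebraMap F L a) + dist (algebraMap F L a) (e1 z) :=
            dist_triangle _ _ _
        _ < ε / 2 + ε / 2 := by
            refine add_lt_add ha ?_
            rw [dist_comm, dist_eq_norm]
            exact hz1
        _ = ε := add_halves ε
    · simp only
      calc dist y (e2 z) ≤ dist y (e2 v) + dist (e2 v) (e2 z) := dist_triangle _ _ _
        _ < ε / 2 + ε / 2 := by
            refine add_lt_add hv ?_
            rw [dist_comm, dist_eq_norm]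
            exact hz2
        _ = ε := add_halves ε
  intro p
  have hp : p ∈ (W : Set (L × L')) := hclosed.closure_subset_iff.mpr (le_refl _) (hdense p)
  obtain ⟨t, ht⟩ := hp
  exact ⟨t, ht⟩

/-- **Step 3.**  `1 + [L' : L] ≤ [E : F]`. -/
theorem one_add_finrank_le (hF : DenseRange (algebraMap F L)) (he2 : DenseRange e2)
    (happrox : ∀ u v : E, ∀ ε : ℝ, 0 < ε → ∃ z : E, ‖e1 z - e1 u‖ < ε ∧ ‖e2 z - e2 v‖ < ε) :
    1 + Module.finrank L L' ≤ Module.finrank F E := by
  have : Module.Finite L L' := finite_of_denseRange e2 he2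
  have h1 := LinearMap.finrank_le_finrank_of_surjective
    (f := (splitMap e1 e2).toLinearMap) (splitMap_surjective e1 e2 hF he2 happrox)
  rw [Module.finrank_prod, Module.finrank_self, Module.finrank_baseChange] at h1
  exact h1

/-- **Step 4.**  In case of equality the comparison map is bijective. -/
theorem splitMap_bijective (hF : DenseRange (algebraMap F L)) (he2 : DenseRange e2)
    (happrox : ∀ u v : E, ∀ ε : ℝ, 0 < ε → ∃ z : E, ‖e1 z - e1 u‖ < ε ∧ ‖e2 z - e2 v‖ < ε)
    (hle : Module.finrank F E ≤ 1 + Module.finrank L L') :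
    Function.Bijective (splitMap e1 e2) := by
  have : Module.Finite L L' := finite_of_denseRange e2 he2
  have hsurj := splitMap_surjective e1 e2 hF he2 happrox
  have hge := one_add_finrank_le e1 e2 hF he2 happrox
  have heq : Module.finrank L (L ⊗[F] E) = Module.finrank L (L × L') := by
    rw [Module.finrank_prod, Module.finrank_self, Module.finrank_baseChange]
    omega
  exact ⟨(LinearMap.injective_iff_surjective_of_finrank_eq_finrank heq
    (f := (splitMap e1 e2).toLinearMap)).mpr hsurj, hsurj⟩

/-- **Step 5.**  The norm factorisation `N_{E/F}(f) = e1 f * N_{L'/L}(e2 f)`. -/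
theorem algebraMap_norm_eq (hF : DenseRange (algebraMap F L)) (he2 : DenseRange e2)
    (happrox : ∀ u v : E, ∀ ε : ℝ, 0 < ε → ∃ z : E, ‖e1 z - e1 u‖ < ε ∧ ‖e2 z - e2 v‖ < ε)
    (hle : Module.finrank F E ≤ 1 + Module.finrank L L') (f : E) :
    algebraMap F L (Algebra.norm F f) = e1 f * Algebra.norm L (e2 f) := by
  have : Module.Finite L L' := finite_of_denseRange e2 he2
  let e : L ⊗[F] E ≃ₐ[L] L × L' :=
    AlgEquiv.ofBijective (splitMap e1 e2) (splitMap_bijective e1 e2 hF he2 happrox hle)
  have h := NormFac.algebraMap_norm_eq_mul_of_degree_one e f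
  have he : e ((1 : L) ⊗ₜ[F] f) = (e1 f, e2 f) := splitMap_one_tmul e1 e2 f
  rw [he] at h
  exact h

end Split

end Fermat.Agent.FF3.StepA2
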