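/-
FF3/StepA2/Split.lean — block A2 of PROGRAMME I, Step A: `L ⊗[Fb M, α] Fb (M q) ≃ L × L_φ`,
`[L : φ L] = q`, and the norm factorisations
`eM (N_α f) = e1 f * N_φ (e2 f)`, `eM (N_β f) = N_φ (e1 f) * e2 f`.
-/
import Mathlib
import Fermat.Agent.FF3.StepA2.FrameBasic
import Fermat.Agent.FF3.StepA2.Ortho
import Fermat.Agent.FF3.StepA2.SplitAbs

set_option autoImplicit false
set_option linter.unusedSectionVars false
set_option linter.unusedVariables false
set_option linter.style.haveILetI false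

noncomputable section

namespace Fermat.Agent.FF3.StepA2

open AlgebraicCurve ModularCurve IsLocalRing Fermat.Agent.Red Fermat.Agent.X0 Fermat.Agent.Hecke
  Fermat.Agent.Jac Fermat.Agent.Val Fermat.Agent.BR Fermat.Agent.BR.SS Fermat.Agent.BR.S0
  Fermat.Agent.BR.TwoVal Fermat.Agent.BR.TwoValInst Fermat.Agent.BR.ConstRedTwo
  Fermat.Agent.BR.Inst.SpecIso Fermat.Agent.BR2.NormResidueModular
  Fermat.Agent.BR.S0.RedModular Fermat.Agent.BR.ResGen Fermat.Agent.FF3.StepA

variable {M q : ℕ} [NeZero M] [hq : Fact q.Prime]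
  {B : ValuationSubring (AlgebraicClosure ℚ)} [IsAlgClosed (ResidueField B)]
  [CharP (ResidueField B) q]
  {hB : B.LiesOverPrime q} (hqM : ¬ q ∣ M)
  {L : Type} [NormedField L] [CompleteSpace L] [IsUltrametricDist L] (Fr : Frame M q B hB L)
include hqM

/-- All of block A2 in one statement (the three parts share the same local instances). -/
theorem split_package :
    Module.Finite L (LPhi Fr.φ) ∧ Module.finrank L (LPhi Fr.φ) = q ∧
      ∀ f : Fb (M * q),
        Fr.eM (normAlong (heckeAlphaBar Kb M q) f) = Fr.e1 f * Fr.N (Fr.e2 hqM f) := by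
  letI := algebraAlong (heckeAlphaBar Kb M q)
  haveI : FiniteDimensional (Fb M) (Fb (M * q)) := Fermat.Agent.Hecke.finiteAlong_heckeAlphaBar M q
  letI : NontriviallyNormedField L :=
    { (inferInstance : NormedField L) with non_trivial := exists_one_lt_norm hqM Fr }
  letI : NormedAlgebra L (LPhi Fr.φ) := LPhi.normedAlgebra Fr.φ Fr.norm_phi
  letI : Algebra (Fb M) L := Fr.eM.toAlgebra
  letI : Algebra (Fb M) (LPhi Fr.φ) :=
    ((LPhi.of Fr.φ : L →+* LPhi Fr.φ).comp (Fr.φ.comp Fr.eM)).toAlgebra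
  haveI : IsScalarTower (Fb M) L (LPhi Fr.φ) := IsScalarTower.of_algebraMap_eq (fun a => rfl)
  let e1A : Fb (M * q) →ₐ[Fb M] L := { Fr.e1 with commutes' := fun a => rfl }
  let e2A : Fb (M * q) →ₐ[Fb M] LPhi Fr.φ :=
    { (LPhi.of Fr.φ : L →+* LPhi Fr.φ).comp (Fr.e2 hqM) with
      commutes' := fun a => congrArg (LPhi.of Fr.φ) (e2_alpha hqM Fr a) }
  have hF : DenseRange (algebraMap (Fb M) L) := Fr.dense
  have he2 : DenseRange e2A := denseRange_e2 hqM Fr
  have happrox : ∀ u v : Fb (M * q), ∀ ε : ℝ, 0 < ε →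
      ∃ z : Fb (M * q), ‖e1A z - e1A u‖ < ε ∧ ‖e2A z - e2A v‖ < ε :=
    fun u v ε hε => exists_joint_approx hqM Fr u v ε hε
  haveI hfin : Module.Finite L (LPhi Fr.φ) := finite_of_denseRange e2A he2
  have hFE : Module.finrank (Fb M) (Fb (M * q)) = q + 1 :=
    Fermat.Agent.Hecke.Deg.finrankAlong_heckeAlphaBar M q hq.out hqM
  have hge : q ≤ Module.finrank L (LPhi Fr.φ) := by
    have := (linearIndependent_theta hqM Fr).fintype_card_le_finrank
    rwa [Fintype.card_fin] at this
  have hle := one_add_finrank_le e1A e2A hF he2 happrox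
  have hrank : Module.finrank L (LPhi Fr.φ) = q := by omega
  refine ⟨hfin, hrank, fun f => ?_⟩
  have h := algebraMap_norm_eq e1A e2A hF he2 happrox (by omega) f
  exact h

/-- **(A-deg)** `L` is finite over `φ L`. -/
theorem finite_LPhi : Module.Finite L (LPhi Fr.φ) := (split_package hqM Fr).1

/-- **(A-deg)** `[L : φ L] = q`. -/
theorem finrank_LPhi : Module.finrank L (LPhi Fr.φ) = q := (split_package hqM Fr).2.1

/-- **(A-deg)**, explicit-instance form: the module structure on `L` is the one of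
`Fr.φ.toAlgebra` (NOT `Semiring.toModule`). -/
theorem finite_phi :
    @Module.Finite L L _ _ (@Algebra.toModule L L _ _ Fr.φ.toAlgebra) :=
  finite_LPhi hqM Fr

/-- **(A-deg)**, explicit-instance form. -/
theorem finrank_phi :
    @Module.finrank L L _ _ (@Algebra.toModule L L _ _ Fr.φ.toAlgebra) = q :=
  finrank_LPhi hqM Fr

/-- **(A-NF), along `α`.** -/
theorem eM_normAlong_alpha (f : Fb (M * q)) :
    Fr.eM (normAlong (heckeAlphaBar Kb M q) f) = Fr.e1 f * Fr.N (Fr.e2 hqM f) :=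
  (split_package hqM Fr).2.2 f

/-- **(A-NF), along `β`.** -/
theorem eM_normAlong_beta (f : Fb (M * q)) :
    Fr.eM (normAlong (heckeBetaBar Kb M q) f) = Fr.N (Fr.e1 f) * Fr.e2 hqM f := by
  rw [normAlong_beta_eq hqM, eM_normAlong_alpha hqM Fr, e1_Wq, e2_Wq, mul_comm]

/-- **(A-orth), part 2.** -/
theorem exists_sum_theta (y : L) :
    ∃ c : Fin q → L, y = ∑ i : Fin q, Fr.φ (c i) * Fr.theta ^ (i : ℕ) :=
  exists_sum_theta_of_finrank hqM Fr (finrank_LPhi hqM Fr) y

end Fermat.Agent.FF3.StepA2
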